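import Mathlib

/-!
# Müntz–Szász: necessity

A lower bound for the `L² (0, 1)` distance of `x ^ q` from the span of `x ^ aₖ`: the operator
`P ↦ P - (2 μ + 1) x ^ (-μ - 1) ∫_0^x t ^ μ P` is a contraction, kills `x ^ μ` and multiplies
`x ^ a` by `(a - μ) / (a + μ + 1)`. On the Gram matrix `1 / (a + b + 1)` this is an identity.
-/

set_option autoImplicit false

noncomputable section

open MeasureTheory Finset

namespace FA.MuntzSzasz

/-- The Gram form of the powers `x ^ eᵢ`, `i < n + 1`, on `(0, 1)`. -/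
def gram (e d : ℕ → ℝ) (n : ℕ) : ℝ :=
  ∑ i ∈ range (n + 1), ∑ j ∈ range (n + 1), d i * d j / (e i + e j + 1)

theorem gram_shrink_le (e d : ℕ → ℝ) (he : ∀ i, 0 ≤ e i) (n : ℕ) :
    gram e (fun i => d i * ((e i - e (n + 1)) / (e i + e (n + 1) + 1))) n ≤
      gram e d (n + 1) := by
  set μ := e (n + 1) with hμ
  have hpos : 0 ≤ μ := he _
  have key : gram e (fun i => d i * ((e i - μ) / (e i + μ + 1))) (n + 1) =
      gram e d (n + 1) -
        (2 * μ + 1) * (∑ i ∈ range (n + 2), d i / (e i + μ + 1)) ^ 2 := by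
    rw [sq, Finset.sum_mul_sum, gram, gram]
    simp only [Finset.mul_sum]
    rw [← Finset.sum_sub_distrib]
    refine Finset.sum_congr rfl fun i _ => ?_
    rw [← Finset.sum_sub_distrib]
    refine Finset.sum_congr rfl fun j _ => ?_
    have hi := he i
    have hj := he j
    have h1 : e i + μ + 1 ≠ 0 := by positivity
    have h2 : e j + μ + 1 ≠ 0 := by positivity
    have h3 : e i + e j + 1 ≠ 0 := by positivity
    field_simp
    ring
  have hdrop : gram e (fun i => d i * ((e i - μ) / (e i + μ + 1))) (n + 1) =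
      gram e (fun i => d i * ((e i - μ) / (e i + μ + 1))) n := by
    unfold gram
    rw [Finset.sum_range_succ _ (n + 1)]
    simp only [Finset.sum_range_succ _ (n + 1), hμ, sub_self, zero_div, mul_zero, zero_mul,
      add_zero, Finset.sum_const_zero]
  rw [← hdrop, key]
  have : 0 ≤ (2 * μ + 1) * (∑ i ∈ range (n + 2), d i / (e i + μ + 1)) ^ 2 := by positivity
  linarith

/-- The Cauchy determinant bound, in the form of an inequality. -/
theorem le_gram (e : ℕ → ℝ) (he : ∀ i, 0 ≤ e i) : ∀ (n : ℕ) (d : ℕ → ℝ),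
    d 0 ^ 2 / (2 * e 0 + 1) *
      (∏ k ∈ range n, ((e 0 - e (k + 1)) / (e 0 + e (k + 1) + 1)) ^ 2) ≤ gram e d n := by
  intro n
  induction n with
  | zero =>
    intro d
    simp [gram, sq, two_mul]
  | succ n ih =>
    intro d
    refine le_trans (le_of_eq ?_) (le_trans (ih _) (gram_shrink_le e d he n))
    rw [Finset.prod_range_succ]
    ring

theorem setIntegral_rpow_unit {r : ℝ} (hr : 0 ≤ r) :
    ∫ x in Set.Ioo (0 : ℝ) 1, x ^ r = 1 / (r + 1) := by
  rw [← integral_Ioc_eq_integral_Ioo, ← intervalIntegral.integral_of_le zero_le_one,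
    integral_rpow (Or.inl (by linarith)), Real.one_rpow, Real.zero_rpow (by linarith), sub_zero]

theorem integrableOn_rpow_unit {r : ℝ} (hr : 0 ≤ r) :
    IntegrableOn (fun x : ℝ => x ^ r) (Set.Ioo 0 1) :=
  ((continuous_id.rpow_const fun _ => Or.inr hr).integrableOn_Icc).mono_set
    Set.Ioo_subset_Icc_self

theorem gram_eq_integral (e d : ℕ → ℝ) (he : ∀ i, 0 ≤ e i) (n : ℕ) :
    gram e d n = ∫ x in Set.Ioo (0 : ℝ) 1, (∑ i ∈ range (n + 1), d i * x ^ e i) ^ 2 := by
  have hint : ∀ i j, IntegrableOn (fun x : ℝ => d i * d j * x ^ (e i + e j)) (Set.Ioo 0 1) :=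
    fun i j => (integrableOn_rpow_unit (add_nonneg (he i) (he j))).const_mul _
  have hsq : ∀ x ∈ Set.Ioo (0 : ℝ) 1, (∑ i ∈ range (n + 1), d i * x ^ e i) ^ 2 =
      ∑ i ∈ range (n + 1), ∑ j ∈ range (n + 1), d i * d j * x ^ (e i + e j) := fun x hx => by
    rw [sq, Finset.sum_mul_sum]
    refine Finset.sum_congr rfl fun i _ => Finset.sum_congr rfl fun j _ => ?_
    rw [Real.rpow_add hx.1]
    ring
  rw [setIntegral_congr_fun measurableSet_Ioo hsq,
    integral_finsetSum _ fun i _ => integrable_finsetSum _ fun j _ => hint i j]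
  refine Finset.sum_congr rfl fun i _ => ?_
  rw [integral_finsetSum _ fun j _ => hint i j]
  refine Finset.sum_congr rfl fun j _ => ?_
  rw [integral_const_mul, setIntegral_rpow_unit (add_nonneg (he i) (he j))]
  ring

/-- If `∑ 1 / lamₖ < ∞`, then `x ^ (lam₀ / 2)` has positive distance from the span. -/
theorem exists_pos_le_integral {lam : ℕ → ℝ} (h0 : 0 < lam 0) (hmono : StrictMono lam)
    (hsum : Summable fun k => 1 / lam k) :
    ∃ δ > 0, ∀ (n : ℕ) (c₀ : ℝ) (c : ℕ → ℝ), δ ≤ ∫ x in Set.Ioo (0 : ℝ) 1,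
      (x ^ (lam 0 / 2) - (c₀ + ∑ k ∈ range n, c k * x ^ lam k)) ^ 2 := by
  set q := lam 0 / 2 with hq
  have hq0 : 0 < q := by positivity
  have hlam : ∀ k, 0 < lam k := fun k => h0.trans_le (hmono.monotone (Nat.zero_le k))
  set S := ∑' k, 1 / lam k with hS
  refine ⟨1 / (2 * q + 1) * ((q / (q + 1)) ^ 2 * Real.exp (-(2 * (2 * q + 1)) * S) ^ 2),
    by positivity, fun n c₀ c => ?_⟩
  let e : ℕ → ℝ := fun i => match i with
    | 0 => q
    | 1 => 0
    | k + 2 => lam k
  let d : ℕ → ℝ := fun i => match i with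
    | 0 => 1
    | 1 => -c₀
    | k + 2 => -c k
  have he : ∀ i, 0 ≤ e i := by
    intro i
    match i with
    | 0 => exact hq0.le
    | 1 => exact le_rfl
    | k + 2 => exact (hlam k).le
  have hcongr : ∀ x : ℝ, x ^ q - (c₀ + ∑ k ∈ range n, c k * x ^ lam k) =
      ∑ i ∈ range (n + 1 + 1), d i * x ^ e i := fun x => by
    rw [Finset.sum_range_succ', Finset.sum_range_succ']
    simp only [e, d, zero_add, Real.rpow_zero, mul_one, one_mul, neg_mul, Finset.sum_neg_distrib]
    ring
  simp only [hcongr]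
  rw [← gram_eq_integral e d he (n + 1)]
  refine le_trans ?_ (le_gram e he (n + 1) d)
  have hd0 : d 0 = 1 := rfl
  have he0 : e 0 = q := rfl
  rw [hd0, he0, one_pow, Finset.prod_range_succ']
  refine mul_le_mul_of_nonneg_left ?_ (by positivity)
  have h1 : ((q - e (0 + 1)) / (q + e (0 + 1) + 1)) ^ 2 = (q / (q + 1)) ^ 2 := by simp [e]
  have h2 : Real.exp (-(2 * (2 * q + 1)) * S) ^ 2 ≤
      ∏ k ∈ range n, ((q - e (k + 1 + 1)) / (q + e (k + 1 + 1) + 1)) ^ 2 := by
    calc Real.exp (-(2 * (2 * q + 1)) * S) ^ 2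
        ≤ Real.exp (∑ k ∈ range n, -(2 * (2 * q + 1)) * (1 / lam k)) ^ 2 := by
          refine pow_le_pow_left₀ (Real.exp_pos _).le (Real.exp_le_exp.2 ?_) 2
          rw [← Finset.mul_sum]
          exact mul_le_mul_of_nonpos_left
            (hsum.sum_le_tsum _ fun k _ => (one_div_pos.2 (hlam k)).le) (by linarith)
      _ = ∏ k ∈ range n, Real.exp (-(2 * (2 * q + 1)) * (1 / lam k)) ^ 2 := by
          rw [Real.exp_sum, Finset.prod_pow]
      _ ≤ _ := by
          refine Finset.prod_le_prod (fun k _ => sq_nonneg _) fun k _ => ?_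
          have hk : 2 * q ≤ lam k := by
            rw [hq]
            linarith [hmono.monotone (Nat.zero_le k)]
          have hkpos := hlam k
          set t := (lam k - q) / (lam k + q + 1) with ht
          have ht0 : 0 < t := div_pos (by linarith) (by linarith)
          have hsq : ((q - e (k + 1 + 1)) / (q + e (k + 1 + 1) + 1)) ^ 2 = t ^ 2 := by
            show ((q - lam k) / (q + lam k + 1)) ^ 2 = t ^ 2
            rw [ht, ← neg_sq, ← neg_div, neg_sub, add_comm q]
          rw [hsq]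
          refine pow_le_pow_left₀ (Real.exp_pos _).le ?_ 2
          rw [← Real.exp_log ht0, Real.exp_le_exp]
          refine le_trans ?_ (Real.one_sub_inv_le_log_of_pos ht0)
          have hne : lam k - q ≠ 0 := by linarith
          rw [ht, inv_div, one_sub_div hne, mul_one_div, div_le_div_iff₀ hkpos (by linarith)]
          nlinarith
  rw [h1]
  calc (q / (q + 1)) ^ 2 * Real.exp (-(2 * (2 * q + 1)) * S) ^ 2
      ≤ (q / (q + 1)) ^ 2 *
          ∏ k ∈ range n, ((q - e (k + 1 + 1)) / (q + e (k + 1 + 1) + 1)) ^ 2 :=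
        mul_le_mul_of_nonneg_left h2 (sq_nonneg _)
    _ = _ := mul_comm _ _

end FA.MuntzSzasz
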