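import Mathlib

/-!
# Müntz–Szász: sufficiency

Following v. Golitschek, `x ^ q` is within `∏ |1 - q / λₖ|` of the span of `x ^ λₖ`, `k < n`,
uniformly on `[0, 1]`. If `∑ 1 / λₖ = ∞`, this covers all `q > 0` when `λₖ → ∞`; when `λₖ → L` it
covers `q < 2 L`, and iteration covers all `q > 0`. Polynomials are dense.
-/

set_option autoImplicit false

noncomputable section

open MeasureTheory Finset Filter
open scoped Topology

namespace FA.MuntzSzasz

/-- `f` is uniformly approximable on `[0, 1]` by the span of `x ^ lamₖ`. -/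
def UApprox (lam : ℕ → ℝ) (f : ℝ → ℝ) : Prop :=
  ∀ ε > 0, ∃ (n : ℕ) (c : ℕ → ℝ),
    ∀ x ∈ Set.Icc (0 : ℝ) 1, |f x - ∑ k ∈ range n, c k * x ^ lam k| ≤ ε

theorem integral_rpow_segment {x r : ℝ} (hx : 0 < x) (hx1 : x ≤ 1) (hr : r ≠ -1) :
    ∫ t in x..1, t ^ r = (1 - x ^ (r + 1)) / (r + 1) := by
  have h0 : (0 : ℝ) ∉ Set.uIcc x 1 := by
    rw [Set.uIcc_of_le hx1]
    exact fun h => absurd h.1 (not_le.2 hx)
  rw [integral_rpow (Or.inr ⟨hr, h0⟩), Real.one_rpow]

/-- The estimate of v. Golitschek. -/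
theorem exists_abs_rpow_sub_le {lam : ℕ → ℝ} (hpos : ∀ k, 0 < lam k)
    (hinj : Function.Injective lam) {q : ℝ} (hq : 0 < q) :
    ∀ n : ℕ, ∃ c : ℕ → ℝ, ∀ x ∈ Set.Icc (0 : ℝ) 1,
      |x ^ q - ∑ k ∈ range n, c k * x ^ lam k| ≤ ∏ k ∈ range n, |1 - q / lam k| := by
  intro n
  induction n with
  | zero =>
    refine ⟨0, fun x hx => ?_⟩
    simpa [abs_of_nonneg (Real.rpow_nonneg hx.1 q)] using Real.rpow_le_one hx.1 hx.2 hq.le
  | succ n ih =>
    obtain ⟨c, hc⟩ := ih
    set μ := lam n with hμ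
    have hμ0 : 0 < μ := hpos n
    have hM : 0 ≤ ∏ k ∈ range n, |1 - q / lam k| := prod_nonneg fun k _ => abs_nonneg _
    rcases eq_or_ne q μ with hqμ | hqμ
    · refine ⟨fun k => if k = n then 1 else 0, fun x hx => ?_⟩
      simp only [ite_mul, one_mul, zero_mul, Finset.sum_ite_eq', Finset.mem_range,
        Nat.lt_succ_self, if_true, ← hμ, hqμ, sub_self, abs_zero]
      exact prod_nonneg fun k _ => abs_nonneg _
    let c' : ℕ → ℝ := fun k => if k = n then 1 + ∑ j ∈ range n, c j * (μ - q) / (lam j - μ)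
      else -(c k * (μ - q) / (lam k - μ))
    refine ⟨c', fun x hx => ?_⟩
    have hsum : ∑ k ∈ range (n + 1), c' k * x ^ lam k =
        x ^ μ + ∑ k ∈ range n, c k * (μ - q) / (lam k - μ) * (x ^ μ - x ^ lam k) := by
      rw [Finset.sum_range_succ]
      simp only [c', if_true, ← hμ]
      rw [Finset.sum_congr rfl (g := fun k => -(c k * (μ - q) / (lam k - μ)) * x ^ lam k)
        fun k hk => by rw [if_neg (Finset.mem_range.1 hk).ne]]
      simp only [mul_sub, Finset.sum_sub_distrib, ← Finset.sum_mul, neg_mul,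
        Finset.sum_neg_distrib]
      ring
    rw [hsum, Finset.prod_range_succ, ← hμ]
    rcases hx.1.eq_or_lt with hx0 | hx0
    · subst hx0
      simpa [Real.zero_rpow hq.ne', Real.zero_rpow hμ0.ne', Real.zero_rpow (hpos _).ne'] using
        mul_nonneg hM (abs_nonneg _)
    have hne : ∀ k ∈ range n, lam k - μ ≠ 0 := fun k hk =>
      sub_ne_zero.2 fun h => (Finset.mem_range.1 hk).ne (hinj h)
    have hpw : ∀ a : ℝ, x ^ μ * x ^ (a - μ) = x ^ a := fun a => by
      rw [← Real.rpow_add hx0]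
      ring_nf
    have h0 : (0 : ℝ) ∉ Set.uIcc x 1 := by
      rw [Set.uIcc_of_le hx.2]
      exact fun h => absurd h.1 (not_le.2 hx0)
    have hii : ∀ r : ℝ, IntervalIntegrable (fun t : ℝ => t ^ r) volume x 1 := fun r =>
      intervalIntegral.intervalIntegrable_rpow (Or.inr h0)
    have hterm : ∀ a : ℝ, a - μ ≠ 0 →
        x ^ μ * ∫ t in x..1, t ^ (a - μ - 1) = (x ^ μ - x ^ a) / (a - μ) := fun a ha => by
      rw [integral_rpow_segment hx0 hx.2 (fun h => ha (by linarith)),
        show a - μ - 1 + 1 = a - μ by ring, ← mul_div_assoc, mul_sub, mul_one, hpw]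
    set G : ℝ → ℝ := fun t =>
      t ^ (q - μ - 1) - ∑ k ∈ range n, c k * t ^ (lam k - μ - 1) with hG
    have hGint : (μ - q) * (x ^ μ * ∫ t in x..1, G t) =
        x ^ q - (x ^ μ + ∑ k ∈ range n, c k * (μ - q) / (lam k - μ) * (x ^ μ - x ^ lam k)) := by
      rw [hG, intervalIntegral.integral_sub (hii _) ?_, intervalIntegral.integral_finsetSum]
      · simp only [intervalIntegral.integral_const_mul, mul_sub, Finset.mul_sum,
          mul_left_comm (x ^ μ) (c _)]
        rw [hterm q (sub_ne_zero.2 hqμ), Finset.sum_congr rfl fun k hk =>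
          show (μ - q) * (c k * (x ^ μ * ∫ t in x..1, t ^ (lam k - μ - 1))) =
            c k * (μ - q) / (lam k - μ) * (x ^ μ - x ^ lam k) by
            rw [hterm _ (hne k hk)]; ring]
        have hqne : q - μ ≠ 0 := sub_ne_zero.2 hqμ
        have h1 : (μ - q) * ((x ^ μ - x ^ q) / (q - μ)) = x ^ q - x ^ μ := by
          field_simp
          ring
        simp only [mul_sub]
        linarith
      · exact fun k _ => (hii _).const_mul _
      · exact (IntervalIntegrable.sum (range n) (f := fun k t => c k * t ^ (lam k - μ - 1))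
          fun k _ => (hii _).const_mul (c k)).congr fun t _ => by simp
    rw [← hGint, abs_mul, abs_mul, abs_of_nonneg (Real.rpow_nonneg hx.1 μ)]
    set M := ∏ k ∈ range n, |1 - q / lam k| with hMdef
    have hbound : |∫ t in x..1, G t| ≤ ∫ t in x..1, M * t ^ (-μ - 1) := by
      rw [← Real.norm_eq_abs]
      refine intervalIntegral.norm_integral_le_of_norm_le hx.2
        (Eventually.of_forall fun t ht => ?_) ((hii _).const_mul _)
      have ht0 : 0 < t := hx0.trans ht.1
      have : G t = (t ^ q - ∑ k ∈ range n, c k * t ^ lam k) * t ^ (-μ - 1) := by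
        have e : ∀ a : ℝ, t ^ (a - μ - 1) = t ^ a * t ^ (-μ - 1) := fun a => by
          rw [← Real.rpow_add ht0]
          ring_nf
        simp only [hG, e, sub_mul, Finset.sum_mul, mul_assoc]
      rw [this, Real.norm_eq_abs, abs_mul, abs_of_nonneg (Real.rpow_nonneg ht0.le _)]
      exact mul_le_mul_of_nonneg_right (hc t ⟨ht0.le, ht.2⟩) (Real.rpow_nonneg ht0.le _)
    have h0μ := hterm 0 (by linarith)
    rw [zero_sub, Real.rpow_zero] at h0μ
    calc |μ - q| * (x ^ μ * |∫ t in x..1, G t|)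
        ≤ |μ - q| * (x ^ μ * ∫ t in x..1, M * t ^ (-μ - 1)) := by gcongr
      _ = M * |1 - q / μ| * (1 - x ^ μ) := by
          rw [intervalIntegral.integral_const_mul, mul_left_comm (x ^ μ), h0μ,
            one_sub_div hμ0.ne', abs_div, abs_of_pos hμ0]
          field_simp
          ring
      _ ≤ M * |1 - q / μ| := mul_le_of_le_one_right (mul_nonneg hM (abs_nonneg _))
          (by linarith [Real.rpow_nonneg hx.1 μ])

theorem uapprox_rpow_of_prod {lam : ℕ → ℝ} (hpos : ∀ k, 0 < lam k)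
    (hinj : Function.Injective lam) {q : ℝ} (hq : 0 < q)
    (h : Tendsto (fun n => ∏ k ∈ range n, |1 - q / lam k|) atTop (𝓝 0)) :
    UApprox lam fun x => x ^ q := by
  intro ε hε
  obtain ⟨n, hn⟩ := (h.eventually (eventually_le_nhds hε)).exists
  obtain ⟨c, hc⟩ := exists_abs_rpow_sub_le hpos hinj hq n
  exact ⟨n, c, fun x hx => (hc x hx).trans hn⟩

theorem uapprox_add {lam : ℕ → ℝ} {f g : ℝ → ℝ} (hf : UApprox lam f) (hg : UApprox lam g) :
    UApprox lam fun x => f x + g x := by
  intro ε hε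
  obtain ⟨n, c, hc⟩ := hf (ε / 2) (half_pos hε)
  obtain ⟨m, d, hd⟩ := hg (ε / 2) (half_pos hε)
  refine ⟨n + m, fun k => (if k < n then c k else 0) + if k < m then d k else 0,
    fun x hx => ?_⟩
  have hpad : ∀ (n N : ℕ) (c : ℕ → ℝ), n ≤ N →
      ∑ k ∈ range N, (if k < n then c k else 0) * x ^ lam k = ∑ k ∈ range n, c k * x ^ lam k := by
    intro n N c hnN
    rw [← Finset.sum_subset (Finset.range_mono hnN)
      fun k _ hk => by rw [if_neg (fun h => hk (Finset.mem_range.2 h)), zero_mul]]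
    exact Finset.sum_congr rfl fun k hk => by rw [if_pos (Finset.mem_range.1 hk)]
  simp only [add_mul, Finset.sum_add_distrib]
  rw [hpad n _ c (Nat.le_add_right n m), hpad m _ d (Nat.le_add_left m n), add_sub_add_comm]
  exact (abs_add_le _ _).trans (by linarith [hc x hx, hd x hx])

theorem uapprox_zero (lam : ℕ → ℝ) : UApprox lam fun _ => 0 :=
  fun ε hε => ⟨0, 0, fun x _ => by simpa using hε.le⟩

theorem uapprox_const_mul {lam : ℕ → ℝ} {f : ℝ → ℝ} (a : ℝ) (hf : UApprox lam f) :
    UApprox lam fun x => a * f x := by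
  intro ε hε
  obtain ⟨n, c, hc⟩ := hf (ε / (|a| + 1)) (by positivity)
  refine ⟨n, fun k => a * c k, fun x hx => ?_⟩
  simp only [mul_assoc, ← Finset.mul_sum, ← mul_sub, abs_mul]
  calc |a| * |f x - ∑ k ∈ range n, c k * x ^ lam k|
      ≤ (|a| + 1) * (ε / (|a| + 1)) :=
        mul_le_mul (by linarith) (hc x hx) (abs_nonneg _) (by positivity)
    _ = ε := mul_div_cancel₀ _ (by positivity)

theorem uapprox_sum {lam : ℕ → ℝ} {ι : Type*} (s : Finset ι) {f : ι → ℝ → ℝ}
    (h : ∀ i ∈ s, UApprox lam (f i)) : UApprox lam fun x => ∑ i ∈ s, f i x := by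
  classical
  induction s using Finset.induction_on with
  | empty => simpa using uapprox_zero lam
  | insert a s ha ih =>
    simp only [Finset.sum_insert ha]
    exact uapprox_add (h a (Finset.mem_insert_self a s))
      (ih fun i hi => h i (Finset.mem_insert_of_mem hi))

theorem uapprox_trans {lam μ : ℕ → ℝ} {f : ℝ → ℝ} (hf : UApprox μ f)
    (hμ : ∀ k, UApprox lam fun x => x ^ μ k) : UApprox lam f := by
  intro ε hε
  obtain ⟨n, c, hc⟩ := hf (ε / 2) (half_pos hε)
  obtain ⟨m, d, hd⟩ := uapprox_sum (range n) (fun k _ => uapprox_const_mul (c k) (hμ k))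
    (ε / 2) (half_pos hε)
  exact ⟨m, d, fun x hx => (abs_sub_le _ _ _).trans (by linarith [hc x hx, hd x hx])⟩

/-- Exponents tending to `L > 0`: all `q < 2 L` at once. -/
theorem uapprox_rpow_of_tendsto {lam : ℕ → ℝ} (hpos : ∀ k, 0 < lam k)
    (hinj : Function.Injective lam) {L : ℝ} (hL : 0 < L) (hlim : Tendsto lam atTop (𝓝 L))
    {q : ℝ} (hq : 0 < q) (hqL : q < 2 * L) : UApprox lam fun x => x ^ q := by
  refine uapprox_rpow_of_prod hpos hinj hq ?_
  have hlt : |1 - q / L| < 1 := by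
    rw [abs_lt]
    have h1 : 0 < q / L := div_pos hq hL
    have h2 : q / L < 2 := (div_lt_iff₀ hL).2 hqL
    constructor <;> linarith
  obtain ⟨r, hr1, hr2⟩ := exists_between hlt
  have hev : ∀ᶠ k in atTop, |1 - q / lam k| ≤ r :=
    ((tendsto_const_nhds.sub (tendsto_const_nhds.div hlim hL.ne')).abs).eventually
      (eventually_le_nhds hr1)
  obtain ⟨N, hN⟩ := eventually_atTop.1 hev
  have hr0 : 0 ≤ r := (abs_nonneg _).trans hr1.le
  refine squeeze_zero' (Eventually.of_forall fun n => prod_nonneg fun k _ => abs_nonneg _)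
    (eventually_atTop.2 ⟨N, fun n hn => ?_⟩) (t₀ := atTop)
    (g := fun n => (∏ k ∈ range N, |1 - q / lam k|) * r ^ (n - N)) ?_
  · rw [← Finset.prod_range_mul_prod_Ico _ hn]
    refine mul_le_mul_of_nonneg_left ?_ (prod_nonneg fun k _ => abs_nonneg _)
    refine (Finset.prod_le_prod (fun k _ => abs_nonneg _)
      fun k hk => hN k (Finset.mem_Ico.1 hk).1).trans ?_
    simp
  · simpa using ((tendsto_pow_atTop_nhds_zero_of_lt_one hr0 hr2).comp
      (tendsto_sub_atTop_nat N)).const_mul (∏ k ∈ range N, |1 - q / lam k|)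

/-- Iteration: exponents tending to `L > 0` give every `q < 2 ^ (m + 1) L`. -/
theorem uapprox_rpow_of_tendsto_pow (m : ℕ) : ∀ {lam : ℕ → ℝ}, (∀ k, 0 < lam k) →
    Function.Injective lam → ∀ {L : ℝ}, 0 < L → Tendsto lam atTop (𝓝 L) →
    ∀ {q : ℝ}, 0 < q → q < 2 ^ (m + 1) * L → UApprox lam fun x => x ^ q := by
  induction m with
  | zero =>
    intro lam hpos hinj L hL hlim q hq hqL
    exact uapprox_rpow_of_tendsto hpos hinj hL hlim hq (by simpa using hqL)
  | succ m ih =>
    intro lam hpos hinj L hL hlim q hq hqL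
    have hp : (0 : ℝ) < 2 ^ (m + 1) := by positivity
    obtain ⟨L', h1, h2⟩ := exists_between (show q / 2 ^ (m + 1) < 2 * L by
      rw [div_lt_iff₀ hp]; calc q < 2 ^ (m + 1 + 1) * L := hqL
        _ = 2 * L * 2 ^ (m + 1) := by ring)
    have hL' : 0 < L' := (div_pos hq hp).trans h1
    let μ : ℕ → ℝ := fun k => L' * (1 - 1 / ((k : ℝ) + 2))
    have hμ0 : ∀ k, 0 < μ k := fun k => by
      refine mul_pos hL' ?_
      rw [sub_pos, div_lt_one (by positivity)]
      linarith [k.cast_nonneg (α := ℝ)]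
    have hμinj : Function.Injective μ := fun i j h => by
      have h' := mul_left_cancel₀ hL'.ne' h
      simp only [sub_right_inj, one_div, inv_inj, add_left_inj, Nat.cast_inj] at h'
      exact h'
    have hμlim : Tendsto μ atTop (𝓝 L') := by
      have : Tendsto (fun k : ℕ => (k : ℝ) + 2) atTop atTop :=
        tendsto_atTop_add_const_right _ _ tendsto_natCast_atTop_atTop
      simpa [μ, one_div] using
        ((tendsto_const_nhds (x := (1 : ℝ))).sub this.inv_tendsto_atTop).const_mul L'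
    refine uapprox_trans (ih hμ0 hμinj hL' hμlim hq ?_) fun k =>
      uapprox_rpow_of_tendsto hpos hinj hL hlim (hμ0 k) ?_
    · rw [mul_comm]
      exact (div_lt_iff₀ hp).1 h1
    · refine lt_of_le_of_lt ?_ h2
      exact mul_le_of_le_one_right hL'.le (by
        linarith [one_div_nonneg.2 (show (0 : ℝ) ≤ (k : ℝ) + 2 by positivity)])

theorem uapprox_rpow {lam : ℕ → ℝ} (h0 : 0 < lam 0) (hmono : StrictMono lam)
    (hsum : ¬Summable fun k => 1 / lam k) {q : ℝ} (hq : 0 < q) :
    UApprox lam fun x => x ^ q := by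
  have hpos : ∀ k, 0 < lam k := fun k => h0.trans_le (hmono.monotone (Nat.zero_le k))
  by_cases hb : BddAbove (Set.range lam)
  · have hlim := tendsto_atTop_ciSup hmono.monotone hb
    have hL : 0 < ⨆ k, lam k := h0.trans_le (le_ciSup hb 0)
    obtain ⟨m, hm⟩ := pow_unbounded_of_one_lt (q / ⨆ k, lam k) one_lt_two
    refine uapprox_rpow_of_tendsto_pow m hpos hmono.injective hL hlim hq ?_
    have := (div_lt_iff₀ hL).1 hm
    rw [pow_succ]
    nlinarith [pow_pos (two_pos (α := ℝ)) m]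
  refine uapprox_rpow_of_prod hpos hmono.injective hq ?_
  obtain ⟨N, hN⟩ := eventually_atTop.1
    ((tendsto_atTop_atTop_of_monotone' hmono.monotone hb).eventually_ge_atTop q)
  have hdiv : Tendsto (fun n => ∑ k ∈ range n, 1 / lam k) atTop atTop :=
    (not_summable_iff_tendsto_nat_atTop_of_nonneg fun k => (one_div_pos.2 (hpos k)).le).1 hsum
  set C := (∏ k ∈ range N, |1 - q / lam k|) * Real.exp (q * ∑ k ∈ range N, 1 / lam k)
  refine squeeze_zero' (Eventually.of_forall fun n => prod_nonneg fun k _ => abs_nonneg _)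
    (eventually_atTop.2 ⟨N, fun n hn => ?_⟩) (t₀ := atTop)
    (g := fun n => C * Real.exp (-(q * ∑ k ∈ range n, 1 / lam k))) ?_
  · rw [← Finset.prod_range_mul_prod_Ico _ hn, mul_assoc, ← Real.exp_add]
    refine mul_le_mul_of_nonneg_left ?_ (prod_nonneg fun k _ => abs_nonneg _)
    rw [← sub_eq_add_neg, ← mul_sub, ← neg_sub, ← Finset.sum_Ico_eq_sub _ hn, mul_neg,
      Finset.mul_sum, ← Finset.sum_neg_distrib, Real.exp_sum]
    refine Finset.prod_le_prod (fun k _ => abs_nonneg _) fun k hk => ?_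
    have hk' : q ≤ lam k := hN k (Finset.mem_Ico.1 hk).1
    rw [abs_of_nonneg (sub_nonneg.2 ((div_le_one (hpos k)).2 hk')), mul_one_div]
    linarith [Real.add_one_le_exp (-(q / lam k))]
  · simpa using (Real.tendsto_exp_neg_atTop_nhds_zero.comp
      (hdiv.const_mul_atTop hq)).const_mul C

theorem uapprox_of_polynomial {lam : ℕ → ℝ} (h0 : 0 < lam 0) (hmono : StrictMono lam)
    (hsum : ¬Summable fun k => 1 / lam k) (p : Polynomial ℝ) :
    UApprox lam fun x => p.eval x - p.coeff 0 := by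
  have h : UApprox lam fun x =>
      ∑ j ∈ range p.natDegree, p.coeff (j + 1) * x ^ ((j : ℝ) + 1) :=
    uapprox_sum _ fun j _ => uapprox_const_mul _ (uapprox_rpow h0 hmono hsum (by positivity))
  have heq : (fun x : ℝ => p.eval x - p.coeff 0) = fun x =>
      ∑ j ∈ range p.natDegree, p.coeff (j + 1) * x ^ ((j : ℝ) + 1) := by
    funext x
    rw [Polynomial.eval_eq_sum_range, Finset.sum_range_succ', pow_zero, mul_one,
      add_sub_cancel_right]
    exact Finset.sum_congr rfl fun j _ => by rw [← Nat.cast_add_one, Real.rpow_natCast]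
  rwa [heq]

/-- Sufficiency in `C [0, 1]`. -/
theorem exists_uniform_approx {lam : ℕ → ℝ} (h0 : 0 < lam 0) (hmono : StrictMono lam)
    (hsum : ¬Summable fun k => 1 / lam k) {f : ℝ → ℝ}
    (hf : ContinuousOn f (Set.Icc 0 1)) {ε : ℝ} (hε : 0 < ε) :
    ∃ (n : ℕ) (c₀ : ℝ) (c : ℕ → ℝ),
      ∀ x ∈ Set.Icc (0 : ℝ) 1, |f x - (c₀ + ∑ k ∈ range n, c k * x ^ lam k)| ≤ ε := by
  obtain ⟨p, hp⟩ := exists_polynomial_near_of_continuousOn 0 1 f hf (ε / 2) (half_pos hε)
  obtain ⟨n, c, hc⟩ := uapprox_of_polynomial h0 hmono hsum p (ε / 2) (half_pos hε)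
  refine ⟨n, p.coeff 0, c, fun x hx => ?_⟩
  have h1 := hp x hx
  rw [abs_sub_comm] at h1
  refine (abs_sub_le _ (p.eval x) _).trans ?_
  rw [← sub_sub]
  linarith [hc x hx]

/-- Sufficiency for functions vanishing at `0`: no constant is needed. -/
theorem uapprox_of_map_zero {lam : ℕ → ℝ} (h0 : 0 < lam 0) (hmono : StrictMono lam)
    (hsum : ¬Summable fun k => 1 / lam k) {f : ℝ → ℝ}
    (hf : ContinuousOn f (Set.Icc 0 1)) (hf0 : f 0 = 0) : UApprox lam f := by
  intro ε hε
  obtain ⟨n, c₀, c, hc⟩ := exists_uniform_approx h0 hmono hsum hf (half_pos hε)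
  refine ⟨n, c, fun x hx => ?_⟩
  have h := hc 0 ⟨le_rfl, zero_le_one⟩
  simp only [hf0, Real.zero_rpow ((h0.trans_le (hmono.monotone (Nat.zero_le _))).ne'), mul_zero,
    Finset.sum_const_zero, add_zero, zero_sub, abs_neg] at h
  have e : f x - ∑ k ∈ range n, c k * x ^ lam k =
      (f x - (c₀ + ∑ k ∈ range n, c k * x ^ lam k)) + c₀ := by ring
  rw [e]
  exact (abs_add_le _ _).trans (by linarith [hc x hx])

/-- Sufficiency in `L² (0, 1)`. -/
theorem exists_sq_approx {lam : ℕ → ℝ} (h0 : 0 < lam 0) (hmono : StrictMono lam)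
    (hsum : ¬Summable fun k => 1 / lam k) {f : ℝ → ℝ}
    (hf : MemLp f 2 (volume.restrict (Set.Ioo (0 : ℝ) 1))) {ε : ℝ} (hε : 0 < ε) :
    ∃ (n : ℕ) (c : ℕ → ℝ),
      ∫ x in Set.Ioo (0 : ℝ) 1, (f x - ∑ k ∈ range n, c k * x ^ lam k) ^ 2 ≤ ε := by
  have : IsFiniteMeasure (volume.restrict (Set.Ioo (0 : ℝ) 1)) :=
    isFiniteMeasure_restrict.2 (by simp [Real.volume_Ioo])
  obtain ⟨g, -, hg, hgc, hgLp⟩ := MemLp.exists_hasCompactSupport_integral_rpow_sub_le two_pos
    (by simpa using hf) (show (0 : ℝ) < ε / 9 by positivity)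
  obtain ⟨k, hk⟩ := exists_nat_ge (g 0 ^ 2 / (ε / 9))
  set h : ℝ → ℝ := fun x => g x - g 0 * (1 - x) ^ k with hh
  have hhc : Continuous h := by fun_prop
  obtain ⟨n, c, hc⟩ := uapprox_of_map_zero h0 hmono hsum hhc.continuousOn (by simp [hh])
    (Real.sqrt (ε / 9)) (by positivity)
  refine ⟨n, c, ?_⟩
  have hgint : Integrable (fun x => (f x - g x) ^ 2) (volume.restrict (Set.Ioo (0 : ℝ) 1)) :=
    MemLp.integrable_sq (hf.sub (by simpa using hgLp))
  have hpint : IntegrableOn (fun x : ℝ => (g 0 * (1 - x) ^ k) ^ 2) (Set.Ioo 0 1) :=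
    ((by fun_prop : Continuous fun x : ℝ => (g 0 * (1 - x) ^ k) ^ 2).integrableOn_Icc).mono_set
      Set.Ioo_subset_Icc_self
  calc ∫ x in Set.Ioo (0 : ℝ) 1, (f x - ∑ k ∈ range n, c k * x ^ lam k) ^ 2
      ≤ ∫ x in Set.Ioo (0 : ℝ) 1,
          (3 * (f x - g x) ^ 2 + 3 * (g 0 * (1 - x) ^ k) ^ 2 + 3 * (ε / 9)) := by
        refine integral_mono_of_nonneg (Eventually.of_forall fun x => sq_nonneg _)
          (((hgint.const_mul 3).add (hpint.const_mul 3)).add (integrable_const _))
          ((ae_restrict_mem measurableSet_Ioo).mono fun x hx => ?_)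
        have h3 := hc x (Set.Ioo_subset_Icc_self hx)
        have h4 : (h x - ∑ k ∈ range n, c k * x ^ lam k) ^ 2 ≤ ε / 9 := by
          rw [← sq_abs, ← Real.sq_sqrt (show 0 ≤ ε / 9 by positivity)]
          exact pow_le_pow_left₀ (abs_nonneg _) h3 2
        simp only [hh] at h4
        nlinarith [sq_nonneg (f x - g x - g 0 * (1 - x) ^ k),
          sq_nonneg (f x - g x - (g x - g 0 * (1 - x) ^ k - ∑ k ∈ range n, c k * x ^ lam k)),
          sq_nonneg (g 0 * (1 - x) ^ k - (g x - g 0 * (1 - x) ^ k -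
            ∑ k ∈ range n, c k * x ^ lam k))]
    _ ≤ 3 * (ε / 9) + 3 * (ε / 9) + 3 * (ε / 9) := by
        have hint : IntegrableOn (fun x => 3 * (f x - g x) ^ 2 + 3 * (g 0 * (1 - x) ^ k) ^ 2)
            (Set.Ioo 0 1) := (hgint.const_mul 3).add (hpint.const_mul 3)
        rw [integral_add hint (integrable_const _),
          integral_add (hgint.const_mul 3) (hpint.const_mul 3), integral_const_mul,
          integral_const_mul, setIntegral_const, Real.volume_real_Ioo_of_le zero_le_one,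
          sub_zero, one_smul]
        gcongr
        · simpa [Real.norm_eq_abs] using hg
        · calc ∫ x in Set.Ioo (0 : ℝ) 1, (g 0 * (1 - x) ^ k) ^ 2
              = g 0 ^ 2 * (1 / (2 * (k : ℝ) + 1)) := by
                simp only [mul_pow, ← pow_mul]
                rw [integral_const_mul, ← integral_Ioc_eq_integral_Ioo,
                  ← intervalIntegral.integral_of_le zero_le_one,
                  intervalIntegral.integral_comp_sub_left (fun y : ℝ => y ^ (k * 2)) 1,
                  sub_self, sub_zero, integral_pow]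
                simp [mul_comm]
            _ ≤ ε / 9 := by
                rw [div_le_iff₀ (by positivity)] at hk
                rw [mul_one_div, div_le_iff₀ (by positivity)]
                nlinarith
    _ = ε := by ring

end FA.MuntzSzasz
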